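import Fermat.Agent.Wiring.WeightOne.Deplete
import Fermat.Agent.DSLift.Congruence
import Fermat.Agent.Wiring.Final.Chain

/-!
# The weight one eigensystem of a semistable curve (statement S46)

The weight two eigenform of the curve, with the coefficients at the bad primes removed, is congruent
mod 3 to the formal system with nebentypus `χ₋₃` and the same values at the primes.
-/

set_option autoImplicit false

noncomputable section

namespace FermatAgent.Wiring.WeightOne

open CongruenceSubgroup ModularFormClass EisensteinWeightOne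

theorem hasIntegralBasis_two (N : ℕ) [NeZero N] : CuspForm.HasIntegralBasis N := by
  have h : Submodule.span ℂ ((CuspForm.intLattice N 2 : Submodule ℤ (CuspForm (Gamma0 N) 2)) :
      Set (CuspForm (Gamma0 N) 2)) = ⊤ := ModCurve.Forms.hasIntegralStructure_two N
  rw [CuspForm.intLattice, Submodule.span_span_of_tower] at h
  refine top_le_iff.mp (h ▸ Submodule.span_mono fun f hf => ?_)
  exact DSLift.mem_qIntegralSet_iff.mpr hf

/-- The eigensystem from modularity of exact conductor level. -/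
theorem exists_eigensystem_of_exactConductor (W : WeierstrassCurve ℤ)
    (h : Mlc1IsModularModelOfExactConductorLevel W) :
    ∃ (N : ℕ) (_ : NeZero N) (a : ℕ → ℤ),
      CuspForm.HasIntegralBasis N ∧
      FormalHecke.IsEigensystem
        (fun ℓ => if ℓ ∣ N then 0 else ((chiNegThree ℓ : ℤ) : ℤ)) a ∧
      CuspForm.IsLatticeRealized N a ∧
      (∀ q : ℕ, q.Prime → ¬ q ^ 3 ∣ N) ∧
      ∀ ℓ : ℕ, ℓ.Prime → ¬ ℓ ∣ N → a ℓ = W.apOfModel ℓ := by
  obtain ⟨M, hM0, hsq, hsupp, f, hf, hfp⟩ := h
  have := NeZero.mk hM0.ne'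
  obtain ⟨g, b, hgb, hb0, hb, hbl⟩ := exists_depleted_form hsq hf
  have hdvd : ∀ l : ℕ, l.Prime → (l ∣ M * M ↔ l ∣ M) := fun l hl =>
    ⟨fun h => (hl.dvd_mul.mp h).elim id id, fun h => h.mul_right M⟩
  let t : ℕ → ℤ := fun l => if l ∣ M then 0 else W.apOfModel l
  let e2 : ℕ → ℤ := fun l => if l ∣ M then 0 else (l : ℤ)
  let e1 : ℕ → ℤ := fun l => if l ∣ M then 0 else chiNegThree l
  have hcast : (fun n => ((systemOf e2 t n : ℤ) : ℂ)) = b := by
    have hmap := eigensystem_map (Int.castRingHom ℂ) (isEigensystem_systemOf e2 t)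
    have he : (fun l => Int.castRingHom ℂ (e2 l)) = fun l => if l ∣ M then 0 else (l : ℂ) := by
      funext l; simp only [e2]; split_ifs <;> simp
    rw [he] at hmap
    refine eigensystem_ext hmap hb (by simp [systemOf_zero, hb0]) fun l hl => ?_
    simp only [systemOf_prime hl, hbl l hl, t]
    split_ifs with hlM
    · simp
    · exact (hfp l hl (fun hd => hlM ((hsupp l hl).mpr hd)) hlM).symm
  have hmod : (fun n => ((systemOf e2 t n : ℤ) : ZMod 3)) =
      fun n => ((systemOf e1 t n : ℤ) : ZMod 3) := by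
    have he : (fun l => Int.castRingHom (ZMod 3) (e2 l)) =
        fun l => Int.castRingHom (ZMod 3) (e1 l) := by
      funext l
      simp only [e1, e2, eq_intCast]
      split_ifs
      · rfl
      · exact ((ZMod.intCast_eq_intCast_iff_dvd_sub _ _ 3).mpr
          (DSLift.chiNegThree_modEq l)).symm
    have h2 := eigensystem_map (Int.castRingHom (ZMod 3)) (isEigensystem_systemOf e2 t)
    rw [he] at h2
    exact eigensystem_ext h2 (eigensystem_map _ (isEigensystem_systemOf e1 t))
      (by simp [systemOf_zero]) fun l hl => by simp [systemOf_prime hl]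
  refine ⟨M * M, inferInstance, systemOf e1 t, hasIntegralBasis_two _, ?_, ?_, ?_, ?_⟩
  · refine ⟨systemOf_one, fun l hl n => ?_⟩
    simp only [hdvd l hl]
    exact (isEigensystem_systemOf e1 t).2 l hl n
  · refine ⟨g, DSLift.mem_qIntegralSet_iff.mpr fun n => ⟨systemOf e2 t n, ?_⟩, systemOf e2 t,
      fun n => ?_, fun n => ?_⟩
    · rw [hgb, ← congrFun hcast n]
    · rw [hgb, ← congrFun hcast n]
    · have h1 : (3 : ℤ) ∣ systemOf e2 t n - systemOf e1 t n :=
        (ZMod.intCast_eq_intCast_iff_dvd_sub _ _ 3).mp (congrFun hmod n).symm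
      simpa using dvd_sub h1 (DSLift.three_dvd_bridgeProduct_sub (systemOf e1 t) n)
  · intro q hq h3
    have h4 : q ^ 3 ∣ M ^ 2 := by rwa [sq]
    have hle := (hq.pow_dvd_iff_le_factorization (pow_ne_zero 2 hM0.ne')).mp h4
    have hf1 := hsq.natFactorization_le_one q
    rw [Nat.factorization_pow, Finsupp.smul_apply, smul_eq_mul] at hle
    omega
  · intro l hl hlN
    rw [systemOf_prime hl]
    exact if_neg fun h => hlN ((hdvd l hl).mpr h)

/-- The statement of S46 from the lifting inputs. -/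
theorem weightOneEigensystem (hin : Final.LiftingInputs) (W : WeierstrassCurve ℤ) (hΔ : W.Δ ≠ 0)
    (hW : W.IsSemistableModel) :
    ∃ (N : ℕ) (_ : NeZero N) (a : ℕ → ℤ),
      CuspForm.HasIntegralBasis N ∧
      FormalHecke.IsEigensystem
        (fun ℓ => if ℓ ∣ N then 0 else ((chiNegThree ℓ : ℤ) : ℤ)) a ∧
      CuspForm.IsLatticeRealized N a ∧
      (∀ q : ℕ, q.Prime → q ≠ 3 → ¬ q ^ 3 ∣ N) ∧
      ∀ ℓ : ℕ, ℓ.Prime → W.IsGoodPrimeFor ℓ → ¬ ℓ ∣ N → ℓ ≠ 3 →
        (3 : ℤ) ∣ (a ℓ - W.apOfModel ℓ) := by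
  obtain ⟨N, hN, a, h1, h2, h3, h4, h5⟩ :=
    exists_eigensystem_of_exactConductor W (Final.exactConductor hin W hΔ hW)
  exact ⟨N, hN, a, h1, h2, h3, fun q hq _ => h4 q hq,
    fun ℓ hℓ _ hℓN _ => by rw [h5 ℓ hℓ hℓN, sub_self]; exact dvd_zero 3⟩

end FermatAgent.Wiring.WeightOne
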