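import Mathlib
import Fermat.Prelude.Def_FormalHecke_Eigensystem

/-!
# Formal eigensystems with prescribed values at primes
-/

set_option autoImplicit false

namespace FermatAgent.Wiring.WeightOne

open FormalHecke

variable {R S : Type*} [CommRing R] [CommRing S]

/-- The values at the powers of one prime of the system with data `t`, `e`. -/
def localValue (e t : R) : ℕ → R
  | 0 => 1
  | 1 => t
  | r + 2 => t * localValue e t (r + 1) - e * localValue e t r

/-- The multiplicative system with value `t p` at the primes and recursion given by `e`. -/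
def systemOf (e t : ℕ → R) (n : ℕ) : R :=
  if n = 0 then 0 else n.factorization.prod fun p r => localValue (e p) (t p) r

variable {e t : ℕ → R}

theorem systemOf_zero : systemOf e t 0 = 0 := by simp [systemOf]

theorem systemOf_one : systemOf e t 1 = 1 := by simp [systemOf]

theorem systemOf_pow_mul {l : ℕ} (hl : l.Prime) (k : ℕ) {m : ℕ} (hm : ¬ l ∣ m) :
    systemOf e t (l ^ k * m) = localValue (e l) (t l) k * systemOf e t m := by
  have hm0 : m ≠ 0 := fun h => hm (h ▸ dvd_zero l)
  have hcop : Nat.Coprime (l ^ k) m := ((hl.coprime_iff_not_dvd).mpr hm).pow_left k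
  rw [systemOf, systemOf, if_neg (mul_ne_zero (pow_ne_zero k hl.ne_zero) hm0), if_neg hm0,
    Nat.factorization_mul_of_coprime hcop, Finsupp.prod_add_index_of_disjoint,
    hl.factorization_pow, Finsupp.prod_single_index]
  · rfl
  · simpa only [Nat.support_factorization] using hcop.disjoint_primeFactors

theorem systemOf_prime {l : ℕ} (hl : l.Prime) : systemOf e t l = t l := by
  simpa [systemOf_one, localValue] using
    systemOf_pow_mul (e := e) (t := t) hl 1 (m := 1) hl.not_dvd_one

theorem isEigensystem_systemOf (e t : ℕ → R) : IsEigensystem e (systemOf e t) := by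
  refine ⟨systemOf_one, fun l hl n => ?_⟩
  rcases eq_or_ne n 0 with rfl | hn
  · simp [systemOf_zero]
  obtain ⟨k, m, hm, rfl⟩ := Nat.exists_eq_pow_mul_and_not_dvd hn l hl.ne_one
  rw [systemOf_prime hl]
  rcases k with _ | k
  · have h1 := systemOf_pow_mul (e := e) (t := t) hl 1 hm
    rw [pow_one] at h1
    rw [pow_zero, one_mul, if_neg hm, h1]
    simp [localValue]
  · have hdvd : l ∣ l ^ (k + 1) * m := dvd_mul_of_dvd_left (dvd_pow_self l k.succ_ne_zero) m
    rw [if_pos hdvd, show l * (l ^ (k + 1) * m) = l ^ (k + 2) * m by ring,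
      show l ^ (k + 1) * m / l = l ^ k * m from
        Nat.div_eq_of_eq_mul_left hl.pos (by ring),
      systemOf_pow_mul hl _ hm, systemOf_pow_mul hl _ hm, systemOf_pow_mul hl _ hm, localValue]
    ring

/-- An eigensystem is determined by its values at `0` and at the primes. -/
theorem eigensystem_ext {a b : ℕ → R} (ha : IsEigensystem e a) (hb : IsEigensystem e b)
    (h0 : a 0 = b 0) (hp : ∀ l : ℕ, l.Prime → a l = b l) : a = b := by
  funext n
  induction n using Nat.strong_induction_on with
  | _ n ih =>
    rcases eq_or_ne n 0 with rfl | hn0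
    · exact h0
    rcases eq_or_ne n 1 with rfl | hn1
    · rw [ha.1, hb.1]
    obtain ⟨l, hl, m, rfl⟩ := Nat.exists_prime_and_dvd hn1
    have hm : m ≠ 0 := fun h => hn0 (by simp [h])
    have hlt : m < l * m := lt_mul_left (Nat.pos_of_ne_zero hm) hl.one_lt
    rw [eq_sub_of_add_eq (ha.2 l hl m), eq_sub_of_add_eq (hb.2 l hl m), hp l hl, ih m hlt]
    split_ifs
    · rw [ih (m / l) ((Nat.div_le_self m l).trans_lt hlt)]
    · rfl

/-- Image of an eigensystem under a ring homomorphism. -/
theorem eigensystem_map (φ : R →+* S) {a : ℕ → R} (ha : IsEigensystem e a) :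
    IsEigensystem (fun l => φ (e l)) fun n => φ (a n) := by
  refine ⟨by simp [ha.1], fun l hl n => ?_⟩
  have h := congrArg φ (ha.2 l hl n)
  simpa [map_add, map_mul, apply_ite φ] using h

end FermatAgent.Wiring.WeightOne
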