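import Fermat.Agent.RTLift.NewPart.System
import Fermat.Agent.Wiring.WeightOne.System

/-!
# Killing the bad coefficients of an eigenform of squarefree level

The form with the coefficients prime to `M` of an eigenform of level `M` has level `M * M` when
`M` is squarefree.
-/

set_option autoImplicit false

noncomputable section

namespace FermatAgent.Wiring.WeightOne

open CongruenceSubgroup ModularFormClass DSLift RTLift.NewPart

variable {M : ℕ} [NeZero M]

/-- Depletion at divisors of `M` costs one power of each. -/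
theorem depleteSet_mem_coeffs (B : Finset ℕ) (hB : ∀ r ∈ B, r ∣ M) (hB0 : ∀ r ∈ B, r ≠ 0)
    {a : ℕ → ℂ} (ha : a ∈ coeffs M) : depleteSet B a ∈ coeffs (M * ∏ r ∈ B, r) := by
  induction B using Finset.induction with
  | empty =>
    have h : depleteSet ∅ a = a := funext fun n => by simp [depleteSet]
    simpa [h] using ha
  | @insert r B hr ih =>
    have hrM : r ∣ M := hB r (Finset.mem_insert_self r B)
    have hr0 : r ≠ 0 := hB0 r (Finset.mem_insert_self r B)
    have hmem := ih (fun s hs => hB s (Finset.mem_insert_of_mem hs))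
      (fun s hs => hB0 s (Finset.mem_insert_of_mem hs))
    have hprod : M * ∏ s ∈ B, s ≠ 0 := mul_ne_zero (NeZero.ne M)
      (Finset.prod_ne_zero_iff.mpr fun s hs => hB0 s (Finset.mem_insert_of_mem hs))
    have hL' : M * ∏ s ∈ insert r B, s = M * (∏ s ∈ B, s) * r := by
      rw [Finset.prod_insert hr]; ring
    have := NeZero.mk hprod
    rw [hL', depleteSet_insert]
    have : NeZero (M * (∏ s ∈ B, s) * r) := ⟨mul_ne_zero hprod hr0⟩
    have h1 : ∀ b : ℕ → ℂ, deplete r b = b - vShift r (uShift r b) := fun b => funext fun n => by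
      simp only [deplete, Pi.sub_apply, vShift_apply, uShift_apply]
      split_ifs with hn
      · rw [Nat.div_mul_cancel hn, sub_self]
      · rw [sub_zero]
    rw [h1]
    exact sub_mem (coeffs_mono (dvd_mul_right _ r) hmem)
      (vShift_mem hr0 dvd_rfl (uShift_mem hr0 (hrM.trans (dvd_mul_right M _)) hmem))

/-- The coefficients of an eigenform prime to its level form an eigensystem. -/
theorem isEigensystem_deplete {f : CF M} (hf : f.IsNormalizedEigenform) :
    FormalHecke.IsEigensystem (fun l => if l ∣ M then 0 else (l : ℂ))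
      (depleteSet M.primeFactors fun n => qCoeff ⇑f n) := by
  have hB : ∀ r ∈ M.primeFactors, r.Prime := fun r hr => Nat.prime_of_mem_primeFactors hr
  refine ⟨(depleteSet_one hB _).trans hf.qCoeff_one, fun l hl n => ?_⟩
  by_cases hlM : l ∣ M
  · have hmem : l ∈ M.primeFactors := Nat.mem_primeFactors.mpr ⟨hl, hlM, NeZero.ne M⟩
    have h0 : ∀ k, l ∣ k → depleteSet M.primeFactors (fun n => qCoeff ⇑f n) k = 0 :=
      fun k hk => if_pos ⟨l, hmem, hk⟩
    simp only [h0 (l * n) (dvd_mul_right l n), h0 l dvd_rfl, if_pos hlM, zero_mul, add_zero]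
  · have hB' : ∀ r ∈ M.primeFactors, r.Prime ∧ r ≠ l := fun r hr =>
      ⟨hB r hr, fun h => hlM (h ▸ Nat.dvd_of_mem_primeFactors hr)⟩
    have hrec : ∀ m, qCoeff ⇑f (m * l) + (l : ℂ) * (if l ∣ m then qCoeff ⇑f (m / l) else 0) =
        qCoeff ⇑f l * qCoeff ⇑f m := fun m => by
      rw [(isPrimeEigen_of_isNormalizedEigenform hf).qCoeff_mul_prime hl]
      simp only [hlM, not_false_eq_true, and_true, mul_ite, mul_zero]
      ring
    have hl' : depleteSet M.primeFactors (fun n => qCoeff ⇑f n) l = qCoeff ⇑f l :=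
      if_neg fun ⟨r, hr, hrl⟩ =>
        (hB' r hr).2 ((Nat.prime_dvd_prime_iff_eq (hB r hr) hl).mp hrl)
    simp only [if_neg hlM, hl', mul_comm l n]
    exact depleteSet_tShift hB' hl _ hrec n

/-- The form of level `M * M` with the coefficients of `f` prime to `M`. -/
theorem exists_depleted_form (hsq : Squarefree M) {f : CF M} (hf : f.IsNormalizedEigenform) :
    ∃ (g : CF (M * M)) (b : ℕ → ℂ), (∀ n, qCoeff ⇑g n = b n) ∧ b 0 = 0 ∧
      FormalHecke.IsEigensystem (fun l => if l ∣ M then 0 else (l : ℂ)) b ∧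
      ∀ l : ℕ, l.Prime → b l = if l ∣ M then 0 else qCoeff ⇑f l := by
  have hmem := depleteSet_mem_coeffs M.primeFactors
    (fun r hr => Nat.dvd_of_mem_primeFactors hr)
    (fun r hr => (Nat.prime_of_mem_primeFactors hr).ne_zero)
    (mem_coeffs.mpr ⟨f, fun n => rfl⟩)
  rw [Nat.prod_primeFactors_of_squarefree hsq] at hmem
  obtain ⟨g, hg⟩ := mem_coeffs.mp hmem
  refine ⟨g, _, hg, coeff_zero_of_mem hmem, isEigensystem_deplete hf, fun l hl => ?_⟩
  simp only [depleteSet]
  by_cases hlM : l ∣ M
  · rw [if_pos ⟨l, Nat.mem_primeFactors.mpr ⟨hl, hlM, NeZero.ne M⟩, dvd_rfl⟩, if_pos hlM]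
  · rw [if_neg hlM, if_neg fun ⟨r, hr, hrl⟩ => hlM
      ((Nat.prime_dvd_prime_iff_eq (Nat.prime_of_mem_primeFactors hr) hl).mp hrl ▸
        Nat.dvd_of_mem_primeFactors hr)]

end FermatAgent.Wiring.WeightOne
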